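import Mathlib
import Fermat.Agent.LT.Base.Quotient
import Fermat.Agent.LT.Base.FiniteAdele

set_option autoImplicit false

/-!
# The action of an automorphism of a number field on the finite adeles
-/

noncomputable section

open NumberField IsDedekindDomain WithZero Filter

namespace FermatAgent.LT

variable {L : Type*} [Field L] [NumberField L]

/-- The induced automorphism of the ring of integers. -/
def galInt (σ : L ≃+* L) : 𝓞 L ≃+* 𝓞 L := RingOfIntegers.mapRingEquiv σ

omit [NumberField L] in
theorem galInt_coe (σ : L ≃+* L) (x : 𝓞 L) : ((galInt σ x : 𝓞 L) : L) = σ (x : L) := rfl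

/-- The place `w ∘ σ`. -/
def galPlace (σ : L ≃+* L) (w : HeightOneSpectrum (𝓞 L)) : HeightOneSpectrum (𝓞 L) :=
  (HeightOneSpectrum.equivOfRingEquiv (galInt σ)).symm w

omit [NumberField L] in
theorem galPlace_asIdeal (σ : L ≃+* L) (w : HeightOneSpectrum (𝓞 L)) :
    (galPlace σ w).asIdeal = w.asIdeal.comap (galInt σ) := rfl

omit [NumberField L] in
theorem galPlace_injective (σ : L ≃+* L) : Function.Injective (galPlace σ) :=
  (HeightOneSpectrum.equivOfRingEquiv (galInt σ)).symm.injective

omit [NumberField L] in
theorem tendsto_galPlace (σ : L ≃+* L) : Tendsto (galPlace σ) cofinite cofinite :=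
  (galPlace_injective σ).tendsto_cofinite

theorem intValuation_galInt (σ : L ≃+* L) (w : HeightOneSpectrum (𝓞 L)) (a : 𝓞 L) :
    w.intValuation (galInt σ a) = (galPlace σ w).intValuation a := by
  rcases eq_or_ne a 0 with rfl | ha
  · simp
  have ha' : galInt σ a ≠ 0 := by simpa using ha
  have key : ∀ n : ℕ, w.intValuation (galInt σ a) ≤ exp (-(n : ℤ)) ↔
      (galPlace σ w).intValuation a ≤ exp (-(n : ℤ)) := by
    intro n
    rw [w.intValuation_le_pow_iff_mem, (galPlace σ w).intValuation_le_pow_iff_mem,
      galPlace_asIdeal, ← Ideal.map_symm (galInt σ), ← Ideal.map_pow, Ideal.map_symm,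
      Ideal.mem_comap]
  rw [w.intValuation_if_neg ha', (galPlace σ w).intValuation_if_neg ha]
  congr 2
  have h1 := key
  rw [w.intValuation_if_neg ha', (galPlace σ w).intValuation_if_neg ha] at h1
  simp only [exp_le_exp, neg_le_neg_iff, Nat.cast_le] at h1
  exact_mod_cast le_antisymm ((h1 _).mp le_rfl) ((h1 _).mpr le_rfl)

theorem valuation_gal (σ : L ≃+* L) (w : HeightOneSpectrum (𝓞 L)) (x : L) :
    w.valuation L (σ x) = (galPlace σ w).valuation L x := by
  obtain ⟨a, b, -, rfl⟩ := IsFractionRing.div_surjective (A := 𝓞 L) x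
  simp only [map_div₀]
  rw [show σ (algebraMap (𝓞 L) L a) = algebraMap (𝓞 L) L (galInt σ a) from rfl,
    show σ (algebraMap (𝓞 L) L b) = algebraMap (𝓞 L) L (galInt σ b) from rfl]
  simp only [HeightOneSpectrum.valuation_of_algebraMap, intValuation_galInt]

/-- The map on the valued field before completion. -/
def galVal (σ : L ≃+* L) (w : HeightOneSpectrum (𝓞 L)) :
    WithVal ((galPlace σ w).valuation L) →+* WithVal (w.valuation L) :=
  WithVal.map _ _ σ.toRingHom

theorem valued_galVal (σ : L ≃+* L) (w : HeightOneSpectrum (𝓞 L))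
    (x : WithVal ((galPlace σ w).valuation L)) : Valued.v (galVal σ w x) = Valued.v x :=
  valuation_gal σ w x.ofVal

theorem continuous_galVal (σ : L ≃+* L) (w : HeightOneSpectrum (𝓞 L)) :
    Continuous (galVal σ w) := by
  refine continuous_of_continuousAt_zero (galVal σ w) ?_
  rw [ContinuousAt, map_zero,
    (Valued.hasBasis_nhds_zero _ _).tendsto_iff (Valued.hasBasis_nhds_zero _ _)]
  intro γ _
  obtain ⟨r, s, hr, hs, hrs⟩ :
      ∃ r s : L, r ≠ 0 ∧ s ≠ 0 ∧ ((γ : MonoidWithZeroHom.ValueGroup₀ _)) =
        Valued.v.restrict (WithVal.toVal (w.valuation L) r) /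
          Valued.v.restrict (WithVal.toVal (w.valuation L) s) := by
    obtain ⟨r, s, hr, hs, h⟩ := Valuation.restrict_exists_div_eq
      (Valued.v (R := WithVal (w.valuation L))) γ
    refine ⟨r.ofVal, s.ofVal, fun h0 => hr.ne' ?_, fun h0 => hs.ne' ?_, h.symm⟩
    · rw [show r = 0 from WithVal.ofVal_injective _ (h0.trans (WithVal.ofVal_zero _).symm), map_zero]
    · rw [show s = 0 from WithVal.ofVal_injective _ (h0.trans (WithVal.ofVal_zero _).symm), map_zero]
  refine ⟨Units.mk0 (Valued.v.restrict (WithVal.toVal ((galPlace σ w).valuation L) (σ.symm (r / s))))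
    ?_, trivial, fun x hx => ?_⟩
  · rw [ne_eq, Valuation.restrict_eq_zero_iff, map_eq_zero]
    intro h0
    have h1 := congrArg WithVal.ofVal h0
    simp [hr, hs] at h1
  · simp only [Set.mem_ofPred_eq, Units.val_mk0, Valuation.restrict_lt_iff] at hx ⊢
    rw [hrs, ← map_div₀, Valuation.restrict_lt_iff, valued_galVal]
    refine hx.trans_eq ?_
    change (galPlace σ w).valuation L (σ.symm (r / s)) = _
    rw [← valuation_gal, RingEquiv.apply_symm_apply]
    rfl

/-- The map on completions. -/
def galLoc (σ : L ≃+* L) (w : HeightOneSpectrum (𝓞 L)) :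
    (galPlace σ w).adicCompletion L →+* w.adicCompletion L :=
  ((HeightOneSpectrum.adicCompletion.equiv L w).symm.toRingHom.comp
    (UniformSpace.Completion.mapRingHom (galVal σ w) (continuous_galVal σ w))).comp
      (HeightOneSpectrum.adicCompletion.equiv L (galPlace σ w)).toRingHom

theorem continuous_galLoc (σ : L ≃+* L) (w : HeightOneSpectrum (𝓞 L)) :
    Continuous (galLoc σ w) := by
  refine (HeightOneSpectrum.adicCompletion.isUniformInducing_toCompletion L w).isInducing.continuous_iff.mpr ?_
  exact UniformSpace.Completion.continuous_map.comp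
    (HeightOneSpectrum.adicCompletion.isUniformInducing_toCompletion L _).isInducing.continuous

theorem galLoc_coe (σ : L ≃+* L) (w : HeightOneSpectrum (𝓞 L)) (x : L) :
    galLoc σ w (loc (galPlace σ w) x) = loc w (σ x) := by
  change (HeightOneSpectrum.adicCompletion.equiv L w).symm _ = _
  rw [RingEquiv.symm_apply_eq]
  exact UniformSpace.Completion.mapRingHom_coe (continuous_galVal σ w) _

theorem galLoc_mem (σ : L ≃+* L) (w : HeightOneSpectrum (𝓞 L))
    {x : (galPlace σ w).adicCompletion L}
    (hx : x ∈ (galPlace σ w).adicCompletionIntegers L) :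
    galLoc σ w x ∈ w.adicCompletionIntegers L := by
  classical
  have key : ∀ a ∈ (galPlace σ w).adicCompletionIntegers L,
      galLoc σ w a ∈ w.adicCompletionIntegers L := by
    intro a ha
    have hclosed : IsClosed {y : (galPlace σ w).adicCompletion L |
        galLoc σ w y ∈ w.adicCompletionIntegers L} :=
      (Valued.isClosed_valuationSubring _).preimage (continuous_galLoc σ w)
    have hdense := HeightOneSpectrum.denseRange_algebraMap (K := L) (galPlace σ w)
    have hopen : IsOpen ((galPlace σ w).adicCompletionIntegers L :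
        Set ((galPlace σ w).adicCompletion L)) := Valued.isOpen_valuationSubring _
    have hsub : ((galPlace σ w).adicCompletionIntegers L : Set _) ⊆
        closure (Set.range (loc (galPlace σ w)) ∩ (galPlace σ w).adicCompletionIntegers L) := by
      intro z hz
      rw [Set.inter_comm]
      exact hdense.open_subset_closure_inter hopen hz
    refine (closure_minimal ?_ hclosed) (hsub ha)
    rintro _ ⟨⟨k, rfl⟩, hk⟩
    change galLoc σ w (loc (galPlace σ w) k) ∈ w.adicCompletionIntegers L
    rw [galLoc_coe, HeightOneSpectrum.mem_adicCompletionIntegers, valued_loc, valuation_gal,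
      ← valued_loc]
    exact hk
  exact key x hx

/-- The automorphism of the finite adeles. -/
def galAdele (σ : L ≃+* L) : Adf L →+* Adf L :=
  RestrictedProduct.mapAlongRingHom
    (fun w : HeightOneSpectrum (𝓞 L) => w.adicCompletion L)
    (fun w : HeightOneSpectrum (𝓞 L) => w.adicCompletion L)
    (B₁ := fun w : HeightOneSpectrum (𝓞 L) => w.adicCompletionIntegers L)
    (B₂ := fun w : HeightOneSpectrum (𝓞 L) => w.adicCompletionIntegers L)
    (galPlace σ) (tendsto_galPlace σ) (galLoc σ)
    (Filter.Eventually.of_forall fun w _ hx => galLoc_mem σ w hx)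

theorem galAdele_apply (σ : L ≃+* L) (a : Adf L) (w : HeightOneSpectrum (𝓞 L)) :
    galAdele σ a w = galLoc σ w (a (galPlace σ w)) := rfl

theorem galAdele_algebraMap (σ : L ≃+* L) (x : L) :
    galAdele σ (algebraMap L (Adf L) x) = algebraMap L (Adf L) (σ x) :=
  FiniteAdeleRing.ext _ fun w => by
    rw [galAdele_apply]
    exact galLoc_coe σ w x

/-- The automorphism of the adelic group. -/
def galGAf (σ : L ≃+* L) : GAf L →* GAf L := Matrix.GeneralLinearGroup.map (galAdele σ)

theorem galGAf_rationalMat (σ : L ≃+* L) (γ : GL (Fin 2) L) :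
    galGAf σ (rationalMat γ) = rationalMat (Matrix.GeneralLinearGroup.map σ.toRingHom γ) :=
  Units.ext (Matrix.ext fun i j => by simp [galGAf, rationalMat, galAdele_algebraMap])

end FermatAgent.LT
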