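import Mathlib
import Fermat.Agent.LT.Base.Quotient
import Fermat.Agent.LT.Base.FiniteAdele
import Fermat.Agent.LT.Descent.Galois

set_option autoImplicit false

/-!
# Kernels at infinity and operators on functions of the finite cosets
-/

noncomputable section

open MeasureTheory NumberField IsDedekindDomain
open scoped ComplexConjugate MatrixGroups

namespace FermatAgent.LT

namespace H3

/-- The orientation reversing symmetry `(z, t) ↦ (conj z, t)`. -/
def conjPt (P : H3) : H3 := ⟨conj P.z, P.t, P.t_pos⟩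

/-- An invariant kernel: measurable, bounded, supported at bounded distance. -/
structure IsInvKer (h : H3 → H3 → ℂ) : Prop where
  measurable : Measurable (Function.uncurry h)
  bounded : ∃ C : ℝ, ∀ P Q, ‖h P Q‖ ≤ C
  supp : ∃ R : ℝ, ∀ P Q, h P Q ≠ 0 → coshDist P Q ≤ R
  inv : ∀ (g : GL (Fin 2) ℂ) P Q, h (g • P) (g • Q) = h P Q
  conjInv : ∀ P Q, h (conjPt P) (conjPt Q) = h P Q

/-- The composition of kernels. -/
def kConv (h h' : H3 → H3 → ℂ) (P Q : H3) : ℂ := ∫ U, h P U * h' U Q ∂vol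

end H3

variable {L : Type*} [Field L] [NumberField L]

open Classical in
/-- The point seen through an embedding. -/
def ptEmb (x : XInf L) (φ : L →+* ℂ) : H3 :=
  if φ = (InfinitePlace.mk φ).embedding then x (InfinitePlace.mk φ)
  else H3.conjPt (x (InfinitePlace.mk φ))

/-- The action of an automorphism on the archimedean space. -/
def galX (σ : L ≃+* L) (x : XInf L) : XInf L := fun w => ptEmb x (w.embedding.comp σ.toRingHom)

/-- The action of an automorphism on the finite cosets. -/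
def galCoset {𝔫 : Ideal (𝓞 L)} (σ : L ≃+* L) (q : Cosets 𝔫) : Cosets 𝔫 :=
  ((galGAf σ q.out : GAf L) : Cosets 𝔫)

/-- The action of an automorphism on the space. -/
def galY {𝔫 : Ideal (𝓞 L)} (σ : L ≃+* L) (y : YSpace 𝔫) : YSpace 𝔫 :=
  (galX σ y.1, galCoset σ y.2)

/-- The kernel at infinity attached to a family of kernels. -/
def prodKer (h : InfinitePlace L → H3 → H3 → ℂ) (x x' : XInf L) : ℂ := ∏ w, h w (x w) (x' w)

/-- The sum of a kernel over `PGL₂(L)`. -/
def kerSum {𝔫 : Ideal (𝓞 L)} (k : YSpace 𝔫 → YSpace 𝔫 → ℂ) (y y' : YSpace 𝔫) : ℂ :=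
  ∑' γ : PGL(2, L), k y (γ • y')

variable (𝔫 : Ideal (𝓞 L))

/-- Right translation, through the chosen representatives. -/
def rightOp (k : GAf L) : Module.End ℂ (Cosets 𝔫 → ℂ) where
  toFun φ q := φ ((q.out * k : GAf L) : Cosets 𝔫)
  map_add' _ _ := rfl
  map_smul' _ _ := rfl

/-- The Hecke operator at `v` on functions of the cosets. -/
def heckeOp (v : HeightOneSpectrum (𝓞 L)) : Module.End ℂ (Cosets 𝔫 → ℂ) :=
  (∑ᶠ b : 𝓞 L ⧸ v.asIdeal, rightOp 𝔫 (atPlace v (upperTri (piLoc v)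
      (loc v ((Function.surjInv (Ideal.Quotient.mk_surjective (I := v.asIdeal)) b : 𝓞 L) : L)) 1))) +
    rightOp 𝔫 (atPlace v (upperTri 1 0 (piLoc v)))

/-- A word in the Hecke operators. -/
def heckeWord (l : List (HeightOneSpectrum (𝓞 L))) : Module.End ℂ (Cosets 𝔫 → ℂ) :=
  (l.map (heckeOp 𝔫)).prod

/-- The projection to a character of the residual translations at `v`. -/
def psiOp (v : HeightOneSpectrum (𝓞 L)) (ψ : AddChar (𝓞 L ⧸ v.asIdeal) ℂ) :
    Module.End ℂ (Cosets 𝔫 → ℂ) :=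
  (Nat.card (𝓞 L ⧸ v.asIdeal) : ℂ)⁻¹ • ∑ᶠ b : 𝓞 L ⧸ v.asIdeal,
    (ψ b)⁻¹ • rightOp 𝔫 (transl v (Function.surjInv (Ideal.Quotient.mk_surjective (I := v.asIdeal)) b))

theorem det_v4_i (v : HeightOneSpectrum (𝓞 L)) :
    Matrix.det !![(0 : v.adicCompletion L), -1; 1, 0] ≠ 0 := by simp [Matrix.det_fin_two]

theorem loc_two_ne_zero (v : HeightOneSpectrum (𝓞 L)) : (2 : v.adicCompletion L) ≠ 0 := by
  rw [← map_ofNat (loc v) 2]
  simp

theorem det_v4_j (v : HeightOneSpectrum (𝓞 L)) :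
    Matrix.det !![(1 : v.adicCompletion L), 1; 1, -1] ≠ 0 := by
  have := loc_two_ne_zero v
  rw [Matrix.det_fin_two]
  simp
  norm_num
  exact this

theorem det_v4_k (v : HeightOneSpectrum (𝓞 L)) :
    Matrix.det !![(1 : v.adicCompletion L), -1; -1, -1] ≠ 0 := by
  have := loc_two_ne_zero v
  rw [Matrix.det_fin_two]
  simp
  norm_num
  exact this

/-- The average over the four group of residual matrices at a place of residue field `𝔽₃`. -/
def v4Op (v : HeightOneSpectrum (𝓞 L)) : Module.End ℂ (Cosets 𝔫 → ℂ) :=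
  (4 : ℂ)⁻¹ • (rightOp 𝔫 1 +
    rightOp 𝔫 (atPlace v (Matrix.GeneralLinearGroup.mkOfDetNeZero _ (det_v4_i v))) +
    rightOp 𝔫 (atPlace v (Matrix.GeneralLinearGroup.mkOfDetNeZero _ (det_v4_j v))) +
    rightOp 𝔫 (atPlace v (Matrix.GeneralLinearGroup.mkOfDetNeZero _ (det_v4_k v))))

open Classical in
/-- The projection of the level: residual characters at the places of `s`, the four group at those
over `3`. -/
def levelOp (s : Finset (HeightOneSpectrum (𝓞 L)))
    (ψ : ∀ v : HeightOneSpectrum (𝓞 L), AddChar (𝓞 L ⧸ v.asIdeal) ℂ) :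
    Module.End ℂ (Cosets 𝔫 → ℂ) :=
  (s.toList.map fun v => if (3 : 𝓞 L) ∈ v.asIdeal then v4Op 𝔫 v * psiOp 𝔫 v (ψ v)
    else psiOp 𝔫 v (ψ v)).prod

open Classical in
/-- The kernel of an operator on functions of the cosets. -/
def finKer {𝔫 : Ideal (𝓞 L)} (T : Module.End ℂ (Cosets 𝔫 → ℂ)) (a b : Cosets 𝔫) : ℂ :=
  T (Pi.single b 1) a

/-- The kernel of the space. -/
def yKer {𝔫 : Ideal (𝓞 L)} (h : InfinitePlace L → H3 → H3 → ℂ)
    (T : Module.End ℂ (Cosets 𝔫 → ℂ)) (y y' : YSpace 𝔫) : ℂ :=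
  prodKer h y.1 y'.1 * finKer T y.2 y'.2

end FermatAgent.LT
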