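import Mathlib
import Fermat.Agent.LT.Dihedral.Main
import Fermat.Agent.LT.Base.Residue
import Fermat.Agent.LT.Descent.Ops

set_option autoImplicit false

/-!
# The operators of the two sides of the twisted trace formula for `F/K`
-/

noncomputable section

open MeasureTheory NumberField IsDedekindDomain
open scoped MatrixGroups

namespace FermatAgent.LT

/-- The finitely many places over `3m`. -/
def Setup.badPlaces (S : Setup) (L : IntermediateField ℚ (AlgebraicClosure ℚ)) [NumberField L] :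
    Finset (HeightOneSpectrum (𝓞 L)) :=
  (Ideal.finite_factors (I := Ideal.span {((3 * S.m : ℕ) : 𝓞 L)}) (by
    simp [S.m_squarefree.ne_zero])).toFinset

theorem Setup.inclKF_natCast (S : Setup) (n : ℕ) : S.inclInt (n : 𝓞 S.K) = (n : 𝓞 S.F) :=
  map_natCast _ n

theorem Setup.comap_ne_bot (S : Setup) (w : HeightOneSpectrum (𝓞 S.F)) :
    w.asIdeal.comap S.inclInt ≠ ⊥ := by
  intro h
  let _ : Algebra (𝓞 S.K) (𝓞 S.F) := S.inclInt.toAlgebra
  have : Algebra.IsIntegral (𝓞 S.K) (𝓞 S.F) :=
    ⟨fun x => IsIntegral.tower_top (R := ℤ) (RingOfIntegers.isIntegral x)⟩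
  exact w.ne_bot (Ideal.eq_bot_of_comap_eq_bot h)

/-- The place of `K` below a place of `F`. -/
def Setup.underK (S : Setup) (w : HeightOneSpectrum (𝓞 S.F)) : HeightOneSpectrum (𝓞 S.K) :=
  ⟨w.asIdeal.comap S.inclInt, Ideal.comap_isPrime _ _, S.comap_ne_bot w⟩

open Classical in
/-- The characters on `F` matching those on `K`: at the tamely ramified places the cube, as the
trace of `F` over `K` multiplies residues by three. -/
def Setup.psiTriple (S : Setup) (Ψ : S.PsiData) : S.PsiData := fun v =>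
  if (3 : 𝓞 S.K) ∈ v.asIdeal then Ψ v else Ψ v ^ 3

open Classical in
/-- The residual characters on `F`. -/
def Setup.psiF (S : Setup) (Ψ : S.PsiData) (w : HeightOneSpectrum (𝓞 S.F)) :
    AddChar (𝓞 S.F ⧸ w.asIdeal) ℂ :=
  if hw : ((3 * S.m : ℕ) : 𝓞 S.F) ∈ w.asIdeal then
    (S.psiTriple Ψ (S.underK w)).compAddMonoidHom (RingEquiv.ofBijective
      (Ideal.quotientMap w.asIdeal S.inclInt le_rfl)
      ⟨Ideal.quotientMap_injective' (H := le_rfl) le_rfl, fun o => by
        obtain ⟨o, rfl⟩ := Ideal.Quotient.mk_surjective o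
        obtain ⟨b, hb⟩ := S.surjective_residue w hw o
        exact ⟨Ideal.Quotient.mk _ b, (Ideal.Quotient.eq.mpr hb).symm⟩⟩).symm.toAddEquiv.toAddMonoidHom
  else 1

/-- The projection of the level on `F`. -/
def Setup.levelOpF (S : Setup) (Ψ : S.PsiData) :
    Module.End ℂ (Cosets (S.levelIdeal S.F) → ℂ) :=
  levelOp _ (S.badPlaces S.F) (S.psiF Ψ)

/-- The projection of the level on `K`. -/
def Setup.levelOpK (S : Setup) (Ψ : S.PsiData) :
    Module.End ℂ (Cosets (S.levelIdeal S.K) → ℂ) :=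
  levelOp _ (S.badPlaces S.K) Ψ

/-- The base change of the Hecke operator at a place of `F`: `T` at split places, `T³ - 3 q T` at
inert places. -/
def Setup.bcOp (S : Setup) (w : HeightOneSpectrum (𝓞 S.F)) :
    Module.End ℂ (Cosets (S.levelIdeal S.K) → ℂ) :=
  if Ideal.absNorm w.asIdeal = Ideal.absNorm (S.underK w).asIdeal then
    heckeOp _ (S.underK w)
  else heckeOp _ (S.underK w) ^ 3 -
    (3 * Ideal.absNorm (S.underK w).asIdeal : ℂ) • heckeOp _ (S.underK w)

/-- A nontrivial automorphism of `F` over `K`. -/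
def Setup.IsGalGen (S : Setup) (σ : S.F ≃+* S.F) : Prop :=
  σ ≠ RingEquiv.refl _ ∧ ∀ x : S.K, σ (S.inclKF x) = S.inclKF x

/-- The product of the kernels at the three places of `F` over a place of `K`. -/
def Setup.slotKer (S : Setup) (σ : S.F ≃+* S.F) (w₁ : InfinitePlace S.K → InfinitePlace S.F)
    (h : InfinitePlace S.F → H3 → H3 → ℂ) (u : InfinitePlace S.K) : H3 → H3 → ℂ :=
  H3.kConv (H3.kConv (h (w₁ u)) (h ((w₁ u).comap σ.toRingHom)))
    (h (((w₁ u).comap σ.toRingHom).comap σ.toRingHom))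

end FermatAgent.LT
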