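import Fermat.Agent.LT.Dihedral.Main
import Fermat.Agent.LT.Bianchi

set_option autoImplicit false

/-!
# The interface between the cubic descent and the classical Bianchi form
-/

noncomputable section

open NumberField IsDedekindDomain

namespace FermatAgent.LT

/-- The descended form: eigen at every good prime with real eigenvalues, prescribed at the primes
split in `F` outside `T`. -/
structure IsDescended (S : Setup) (Ψ : S.PsiData) (T : Finset ℕ)
    (φ : XInf S.K → GAf S.K → ℂ) : Prop where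
  ne_zero : φ ≠ 0
  /-- otherwise the conditions at the primes outside `T` are empty -/
  T_ne_zero : 0 ∉ T
  cusp : IsCuspFn (S.levelIdeal S.K) φ
  psi : ∀ v : HeightOneSpectrum (𝓞 S.K), ((3 * S.m : ℕ) : 𝓞 S.K) ∈ v.asIdeal → IsPsiAt v (Ψ v) φ
  cuspidal : ∀ v : HeightOneSpectrum (𝓞 S.K), (3 : 𝓞 S.K) ∈ v.asIdeal → IsCuspidalAt v φ
  eigen : ∀ v : HeightOneSpectrum (𝓞 S.K), ((3 * S.m : ℕ) : 𝓞 S.K) ∉ v.asIdeal →
    ∃ l : ℝ, IsEigenAt v φ (l : ℂ) ∧ ((∀ p ∈ T, (p : 𝓞 S.K) ∉ v.asIdeal) → |l| ≤ 2) ∧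
      ((∀ p ∈ T, (p : 𝓞 S.K) ∉ v.asIdeal) → ∀ σ, IsFrobOver v σ →
        S.ρ σ ∈ quaternionSubgroup → l = (q8Trace (S.ρ σ) : ℝ))

end FermatAgent.LT

end
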