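import Fermat.Agent.LT.Descent.Facts.Chars
import Fermat.Agent.LT.Descent.Facts.Frob

/-!
# The fields, places and characters of the descent

The facts are proved in `Facts/Field` (the sextic field over the quadratic field, infinite places),
`Facts/Places` (levels, residue fields, norms), `Facts/Chars` (residual characters) and
`Facts/Frob` (traces of Frobenius, inert places).
-/
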