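import Mathlib

set_option autoImplicit false

/-!
# Polynomials in symmetric contractions converging to the projection on the common kernel
-/

noncomputable section

open Filter Topology ContinuousLinearMap
open scoped InnerProductSpace

namespace FermatAgent.LT.StrongLimit

variable {𝕜 E : Type*} [RCLike 𝕜] [NormedAddCommGroup E] [InnerProductSpace 𝕜 E]

local notation "⟪" x ", " y "⟫" => inner 𝕜 x y

theorem mulv (A B : E →L[𝕜] E) (x : E) : (A * B) x = A (B x) := rfl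

theorem onev (x : E) : (1 : E →L[𝕜] E) x = x := rfl

theorem inner_pow_comm {D : E →L[𝕜] E} (hD : ∀ x y, ⟪D x, y⟫ = ⟪x, D y⟫) (k : ℕ) (x y : E) :
    ⟪(D ^ k) x, y⟫ = ⟪x, (D ^ k) y⟫ := by
  induction k generalizing x y with
  | zero => simp
  | succ k ih =>
    rw [show (D ^ (k + 1)) x = D ((D ^ k) x) by rw [pow_succ', mulv], hD, ih,
      show (D ^ (k + 1)) y = (D ^ k) (D y) by rw [pow_succ, mulv]]

theorem norm_pow_antitone {D : E →L[𝕜] E} (hn : ∀ x, ‖D x‖ ≤ ‖x‖) (v : E) :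
    Antitone fun k : ℕ => ‖(D ^ k) v‖ ^ 2 :=
  antitone_nat_of_succ_le fun k => by
    rw [show D ^ (k + 1) = D * D ^ k from pow_succ' D k, mulv]
    exact pow_le_pow_left₀ (norm_nonneg _) (hn _) 2

/-- The even powers of a symmetric contraction converge strongly. -/
theorem exists_tendsto_even_pow [CompleteSpace E] {D : E →L[𝕜] E} (hD : ∀ x y, ⟪D x, y⟫ = ⟪x, D y⟫)
    (hn : ∀ x, ‖D x‖ ≤ ‖x‖) (v : E) :
    ∃ w, Tendsto (fun k : ℕ => (D ^ (2 * k)) v) atTop (𝓝 w) ∧ D (D w) = w := by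
  set g : ℕ → ℝ := fun k => ‖(D ^ k) v‖ ^ 2 with hg
  obtain ⟨L, hL⟩ : ∃ L, Tendsto g atTop (𝓝 L) :=
    ⟨_, tendsto_atTop_ciInf (norm_pow_antitone hn v) ⟨0, by rintro _ ⟨k, rfl⟩; positivity⟩⟩
  have hL0 : ∀ k, L ≤ g k := fun k =>
    (norm_pow_antitone hn v).le_of_tendsto hL k
  have key : ∀ m n : ℕ, ‖(D ^ (2 * m)) v - (D ^ (2 * n)) v‖ ^ 2 =
      g (2 * m) + g (2 * n) - 2 * g (m + n) := by
    intro m n
    have h1 : RCLike.re ⟪(D ^ (2 * m)) v, (D ^ (2 * n)) v⟫ = g (m + n) := by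
      rw [inner_pow_comm hD, ← mulv, ← pow_add, show 2 * m + 2 * n = (m + n) + (m + n) by ring,
        pow_add, mulv, ← inner_pow_comm hD, inner_self_eq_norm_sq]
    rw [@norm_sub_sq 𝕜 E _ _ _, h1]
    simp only [hg]
    ring
  have hc : CauchySeq fun k : ℕ => (D ^ (2 * k)) v := by
    refine Metric.cauchySeq_iff.mpr fun ε hε => ?_
    obtain ⟨N, hN⟩ := Metric.tendsto_atTop.mp hL (ε ^ 2 / 4) (by positivity)
    refine ⟨N, fun m hm n hn' => ?_⟩
    have a1 := abs_lt.mp (hN (2 * m) (by omega))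
    have a2 := abs_lt.mp (hN (2 * n) (by omega))
    have a3 := hL0 (m + n)
    rw [dist_eq_norm]
    exact lt_of_pow_lt_pow_left₀ 2 hε.le (by rw [key]; linarith [a1.2, a2.2])
  obtain ⟨w, hw⟩ := cauchySeq_tendsto_of_complete hc
  refine ⟨w, hw, ?_⟩
  refine tendsto_nhds_unique
    (f := fun k : ℕ => (D ^ (2 * (k + 1))) v) ?_ (hw.comp (tendsto_add_atTop_nat 1))
  have : Tendsto (fun k : ℕ => (D * D) ((D ^ (2 * k)) v)) atTop (𝓝 ((D * D) w)) :=
    ((D * D).continuous.tendsto w).comp hw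
  refine this.congr fun k => ?_
  rw [← mulv, show 2 * (k + 1) = 1 + 1 + 2 * k by ring, pow_add _ (1 + 1), pow_add, pow_one]

variable {ι : Type*}

/-- The average of the squares of a finite family of operators. -/
def avgSq (s : Finset ι) (X : ι → E →L[𝕜] E) : E →L[𝕜] E :=
  ((s.card : 𝕜)⁻¹) • ∑ i ∈ s, X i * X i

variable {s : Finset ι} {X : ι → E →L[𝕜] E}

theorem avgSq_apply (v : E) : avgSq s X v = (s.card : 𝕜)⁻¹ • ∑ i ∈ s, X i (X i v) := by
  simp [avgSq]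

theorem avgSq_symm (hX : ∀ i ∈ s, ∀ x y, ⟪X i x, y⟫ = ⟪x, X i y⟫) (x y : E) :
    ⟪avgSq s X x, y⟫ = ⟪x, avgSq s X y⟫ := by
  simp only [avgSq_apply, inner_smul_left, inner_smul_right, sum_inner, inner_sum, map_inv₀,
    map_natCast]
  congr 1
  exact Finset.sum_congr rfl fun i hi => by rw [hX i hi, hX i hi]

theorem re_inner_avgSq (hX : ∀ i ∈ s, ∀ x y, ⟪X i x, y⟫ = ⟪x, X i y⟫) (v : E) :
    RCLike.re ⟪avgSq s X v, v⟫ = (s.card : ℝ)⁻¹ * ∑ i ∈ s, ‖X i v‖ ^ 2 := by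
  rw [avgSq_apply, inner_smul_left, map_inv₀, map_natCast,
    show (s.card : 𝕜)⁻¹ = ((s.card : ℝ)⁻¹ : ℝ) by simp, RCLike.re_ofReal_mul, sum_inner, map_sum]
  congr 1
  exact Finset.sum_congr rfl fun i hi => by rw [hX i hi, inner_self_eq_norm_sq]

theorem norm_avgSq_sq_le (hX : ∀ i ∈ s, ∀ x y, ⟪X i x, y⟫ = ⟪x, X i y⟫)
    (hn : ∀ i ∈ s, ∀ x, ‖X i x‖ ≤ ‖x‖) (v : E) :
    ‖avgSq s X v‖ ^ 2 ≤ RCLike.re ⟪avgSq s X v, v⟫ := by
  rw [re_inner_avgSq hX]
  rcases s.eq_empty_or_nonempty with rfl | hs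
  · simp [avgSq]
  have hc : (0 : ℝ) < s.card := by exact_mod_cast hs.card_pos
  rw [avgSq_apply, norm_smul, norm_inv, RCLike.norm_natCast, mul_pow]
  calc ((s.card : ℝ)⁻¹) ^ 2 * ‖∑ i ∈ s, X i (X i v)‖ ^ 2
      ≤ ((s.card : ℝ)⁻¹) ^ 2 * (∑ i ∈ s, ‖X i v‖) ^ 2 := by
        gcongr
        exact (norm_sum_le _ _).trans (Finset.sum_le_sum fun i hi => hn i hi _)
    _ ≤ ((s.card : ℝ)⁻¹) ^ 2 * (s.card * ∑ i ∈ s, ‖X i v‖ ^ 2) := by
        gcongr
        exact sq_sum_le_card_mul_sum_sq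
    _ = (s.card : ℝ)⁻¹ * ∑ i ∈ s, ‖X i v‖ ^ 2 := by field_simp

/-- The polynomial `(1 - avgSq)^(2 k)` converges strongly to the projection on the common
kernel. -/
theorem tendsto_pow_projection [CompleteSpace E] (hX : ∀ i ∈ s, ∀ x y, ⟪X i x, y⟫ = ⟪x, X i y⟫)
    (hn : ∀ i ∈ s, ∀ x, ‖X i x‖ ≤ ‖x‖) (V : Submodule 𝕜 E) [V.HasOrthogonalProjection]
    (hV : ∀ v, v ∈ V ↔ ∀ i ∈ s, X i v = 0) (v : E) :
    Tendsto (fun k : ℕ => ((1 - avgSq s X) ^ (2 * k)) v) atTop (𝓝 (V.starProjection v)) := by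
  set R := avgSq s X with hR
  have hD : ∀ x y, ⟪(1 - R) x, y⟫ = ⟪x, (1 - R) y⟫ := fun x y => by
    simp [inner_sub_left, inner_sub_right, hR, avgSq_symm hX]
  have hle : ∀ x, ‖(1 - R) x‖ ≤ ‖x‖ := fun x => by
    refine (pow_le_pow_iff_left₀ (norm_nonneg _) (norm_nonneg _) two_ne_zero).mp ?_
    have h1 := norm_avgSq_sq_le hX hn x
    have h2 := sq_nonneg ‖R x‖
    rw [sub_apply, onev, @norm_sub_sq 𝕜 E _ _ _, ← inner_conj_symm, RCLike.conj_re]
    rw [← hR] at h1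
    linarith
  obtain ⟨w, hw, hw2⟩ := exists_tendsto_even_pow hD hle v
  have hRw : ∀ i ∈ s, X i w = 0 := by
    have h2 : R w + R w = R (R w) := by
      simp only [sub_apply, onev, map_sub] at hw2
      have hz : w - (w - R w - (R w - R (R w))) = 0 := by rw [hw2, sub_self]
      have e : w - (w - R w - (R w - R (R w))) = R w + R w - R (R w) := by abel
      exact sub_eq_zero.mp (e ▸ hz)
    have h3 := congrArg (fun z => RCLike.re ⟪z, w⟫) h2
    simp only [inner_add_left, map_add] at h3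
    rw [hR, avgSq_symm hX (avgSq s X w) w, inner_self_eq_norm_sq] at h3
    have h4 := norm_avgSq_sq_le hX hn w
    have h5 : RCLike.re ⟪avgSq s X w, w⟫ ≤ 0 := by linarith
    rw [re_inner_avgSq hX] at h5
    intro i hi
    have hc : (0 : ℝ) < s.card := by exact_mod_cast Finset.card_pos.mpr ⟨i, hi⟩
    have h6 : ∑ j ∈ s, ‖X j w‖ ^ 2 ≤ 0 := by
      nlinarith [inv_pos.mpr hc]
    have h7 := (Finset.single_le_sum (fun j _ => sq_nonneg ‖X j w‖) hi).trans h6
    exact norm_eq_zero.mp (pow_eq_zero_iff two_ne_zero |>.mp (le_antisymm h7 (sq_nonneg _)))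
  have hproj : V.starProjection v = w := by
    refine Submodule.eq_starProjection_of_mem_of_inner_eq_zero ((hV w).mpr hRw) fun u hu => ?_
    have hfix : ∀ k : ℕ, ((1 - R) ^ k) u = u := by
      intro k
      induction k with
      | zero => simp
      | succ k ih =>
        rw [pow_succ, mulv, sub_apply, onev, hR, avgSq_apply,
          Finset.sum_eq_zero (fun i hi => by rw [(hV u).mp hu i hi, map_zero]), smul_zero, sub_zero]
        exact ih
    have ht : Tendsto (fun k : ℕ => ⟪((1 - R) ^ (2 * k)) v, u⟫) atTop (𝓝 ⟪w, u⟫) :=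
      hw.inner tendsto_const_nhds
    simp only [inner_pow_comm hD, hfix] at ht
    rw [inner_sub_left, tendsto_nhds_unique tendsto_const_nhds ht, sub_self]
  rw [hproj]
  exact hw

/-- Orthogonal projections on a decreasing sequence converge to the one on the intersection. -/
theorem tendsto_projection_iInf [CompleteSpace E] (V : ℕ → Submodule 𝕜 E) [∀ n, (V n).HasOrthogonalProjection]
    (hV : Antitone V) (W : Submodule 𝕜 E) [W.HasOrthogonalProjection] (hW : ⨅ n, V n = W)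
    (hclosed : ∀ n, IsClosed (V n : Set E)) (v : E) :
    Tendsto (fun n => (V n).starProjection v) atTop (𝓝 (W.starProjection v)) := by
  set p : ℕ → E := fun n => (V n).starProjection v with hp
  have key : ∀ m n, m ≤ n → ‖p m - p n‖ ^ 2 = ‖p m‖ ^ 2 - ‖p n‖ ^ 2 := by
    intro m n hmn
    have h0 : ⟪v - p m, p n⟫ = 0 :=
      Submodule.starProjection_inner_eq_zero v (p n) (hV hmn (Submodule.starProjection_apply_mem _ v))
    have h1 : ⟪v - p n, p n⟫ = 0 :=
      Submodule.starProjection_inner_eq_zero v (p n) (Submodule.starProjection_apply_mem _ v)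
    have h2 : ⟪p m, p n⟫ = ⟪p n, p n⟫ := by
      rw [inner_sub_left, sub_eq_zero] at h0 h1
      rw [← h0, h1]
    rw [@norm_sub_sq 𝕜 E _ _ _, h2, inner_self_eq_norm_sq]
    ring
  have hanti : Antitone fun n => ‖p n‖ ^ 2 := fun m n hmn => by
    have := key m n hmn
    have := sq_nonneg ‖p m - p n‖
    simp only
    linarith
  obtain ⟨L, hL⟩ : ∃ L, Tendsto (fun n => ‖p n‖ ^ 2) atTop (𝓝 L) :=
    ⟨_, tendsto_atTop_ciInf hanti ⟨0, by rintro _ ⟨k, rfl⟩; positivity⟩⟩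
  have hc : CauchySeq p := by
    refine Metric.cauchySeq_iff'.mpr fun ε hε => ?_
    obtain ⟨N, hN⟩ := Metric.tendsto_atTop.mp hL (ε ^ 2) (by positivity)
    refine ⟨N, fun n hn' => ?_⟩
    rw [dist_comm, dist_eq_norm]
    refine lt_of_pow_lt_pow_left₀ 2 hε.le ?_
    rw [key N n hn']
    have a1 := abs_lt.mp (hN N le_rfl)
    linarith [a1.2, hanti.le_of_tendsto hL n]
  obtain ⟨w, hw⟩ := cauchySeq_tendsto_of_complete hc
  have hwV : ∀ n, w ∈ V n := fun n => (hclosed n).mem_of_tendsto hw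
    (eventually_atTop.mpr ⟨n, fun k hk => hV hk (Submodule.starProjection_apply_mem _ v)⟩)
  suffices W.starProjection v = w by rwa [this]
  refine Submodule.eq_starProjection_of_mem_of_inner_eq_zero
    (hW ▸ (Submodule.mem_iInf _).mpr hwV) fun u hu => ?_
  have ht : Tendsto (fun n => ⟪v - p n, u⟫) atTop (𝓝 ⟪v - w, u⟫) :=
    (tendsto_const_nhds.sub hw).inner tendsto_const_nhds
  refine tendsto_nhds_unique ht ?_
  have h0 : ∀ n, ⟪v - p n, u⟫ = 0 := fun n => Submodule.starProjection_inner_eq_zero v u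
    ((Submodule.mem_iInf _).mp (hW.symm ▸ hu) n)
  simp [h0]

end FermatAgent.LT.StrongLimit
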