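import Mathlib
import Fermat.Agent.LT.Descent.GeometricDefs
import Fermat.Agent.LT.Descent.Geom.Main

set_option autoImplicit false

/-!
# The geometric identity of the twisted trace formula for `F/K`
-/

noncomputable section

open MeasureTheory NumberField IsDedekindDomain
open scoped MatrixGroups

namespace FermatAgent.LT

/-- **The geometric identity.** For fundamental domains of finite volume the twisted trace of an
operator on `F` is a fixed multiple of the trace of the matching operator on `K`.  The word is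
required to have odd multiplicity at one inert place: this removes the central and unipotent
classes. -/
theorem trace_identity (S : Setup) (Ψ : S.PsiData) (hΨ : Ψ.Nontriv) (σ : S.F ≃+* S.F)
    (hσ : S.IsGalGen σ) (w₁ : InfinitePlace S.K → InfinitePlace S.F)
    (hw₁ : ∀ u, (w₁ u).comap S.inclKF.toRingHom = u)
    {𝔉F : Set (YSpace (S.levelIdeal S.F))} {𝔉K : Set (YSpace (S.levelIdeal S.K))}
    (hF : IsFundamentalDomain PGL(2, S.F) 𝔉F (yVol (S.levelIdeal S.F)))
    (_hFfin : yVol (S.levelIdeal S.F) 𝔉F < ⊤)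
    (hK : IsFundamentalDomain PGL(2, S.K) 𝔉K (yVol (S.levelIdeal S.K)))
    (_hKfin : yVol (S.levelIdeal S.K) 𝔉K < ⊤) :
    ∃ c : ℂ, ∀ (h : InfinitePlace S.F → H3 → H3 → ℂ) (l : List (HeightOneSpectrum (𝓞 S.F))),
      (∀ w, H3.IsInvKer (h w)) →
      (∀ w ∈ l, ((3 * S.m : ℕ) : 𝓞 S.F) ∉ w.asIdeal) →
      (∃ w : HeightOneSpectrum (𝓞 S.F),
        Ideal.absNorm w.asIdeal ≠ Ideal.absNorm (S.underK w).asIdeal ∧
          letI := Classical.decEq (HeightOneSpectrum (𝓞 S.F))
          Odd (l.count w)) →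
      (∃ C : ℝ, ∀ y y' : YSpace (S.levelIdeal S.F),
        ‖kerSum (yKer h (S.levelOpF Ψ * heckeWord _ l)) y y'‖ ≤ C) →
      (∃ C : ℝ, ∀ y y' : YSpace (S.levelIdeal S.K),
        ‖kerSum (yKer (S.slotKer σ w₁ h) (S.levelOpK Ψ * (l.map S.bcOp).prod)) y y'‖ ≤ C) →
      ∫ y in 𝔉F, kerSum (yKer h (S.levelOpF Ψ * heckeWord _ l)) y (galY σ y)
          ∂(yVol (S.levelIdeal S.F)) =
        c * ∫ y in 𝔉K, kerSum (yKer (S.slotKer σ w₁ h) (S.levelOpK Ψ * (l.map S.bcOp).prod)) y y
          ∂(yVol (S.levelIdeal S.K)) := by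
  refine ⟨1, fun h l hh hl hw hbF hbK => ?_⟩
  obtain ⟨w, hw, hodd⟩ := hw
  rw [one_mul]
  exact Setup.geometric_identity Ψ hΨ hσ hw₁ hF hK hh hl hw hodd hbF hbK

end FermatAgent.LT
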