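import Fermat.Agent.LT.Descent.Descended
import Fermat.Agent.LT.Descent.Classical.Main
import Fermat.Agent.LT.Bianchi
import Fermat.Agent.LT.Descent.Spectral.Final.CoreK
import Fermat.Agent.LT.Descent.Spectral.Final.FormK
import Fermat.Agent.LT.Base.FundDomain

set_option autoImplicit false

/-!
# Cubic descent from `F` to `K` and the classical Bianchi form
-/

noncomputable section

open MeasureTheory NumberField IsDedekindDomain
open scoped MatrixGroups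

namespace FermatAgent.LT

theorem exists_autDomain {L : Type*} [Field L] [NumberField L] [IsTotallyComplex L]
    (𝔫 : Ideal (𝓞 L)) [h𝔫 : Fact (𝔫 ≠ ⊥)] :
    ∃ 𝔇 : AutDomain PGL(2, L) (yVol 𝔫), IsFiniteMeasure ((yVol 𝔫).restrict 𝔇.carrier) := by
  obtain ⟨𝔉, -, -, -, -, -, -, hm, hf, -, hvol, hstrict⟩ := exists_fundDomain h𝔫.out
  exact ⟨⟨𝔉, hf, hm, hstrict⟩, ⟨by rwa [Measure.restrict_apply_univ]⟩⟩

theorem exists_descended (S : Setup) :
    ∃ (Ψ : S.PsiData) (T : Finset ℕ) (φ : XInf S.K → GAf S.K → ℂ),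
      Ψ.Nontriv ∧ IsDescended S Ψ T φ := by
  obtain ⟨Ψ, hΨ⟩ := S.exists_nontriv
  obtain ⟨σ, hσ⟩ := S.exists_isGalGen
  choose w₁ hw₁ using S.exists_infinitePlace_over
  obtain ⟨t, htf, htb, htg⟩ := S.exists_frobTrace
  have ht : S.IsTrace t := ⟨htf, htb, htg⟩
  obtain ⟨𝔇F, hF⟩ := exists_autDomain (S.levelIdeal S.F)
  obtain ⟨𝔇K, hK⟩ := exists_autDomain (S.levelIdeal S.K)
  obtain ⟨ws, hws, hinert, hts, hflip⟩ := exists_noFlip 𝔇F hΨ hσ ht
  let D : DescentData S := ⟨Ψ, hΨ, σ, hσ, w₁, hw₁, t, ws, hws, hinert⟩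
  have : Fact ((2 : ENNReal) ≠ ⊤) := ⟨by norm_num⟩
  obtain ⟨ι, e, -⟩ := exists_hilbertBasis ℂ 𝔇F.Space
  obtain ⟨ι', e', -⟩ := exists_hilbertBasis ℂ 𝔇K.Space
  have := TraceKernel.countable_index e
  have := TraceKernel.countable_index e'
  obtain ⟨κ, hκ⟩ := D.exists_pairing_projection 𝔇F 𝔇K e e'
  have hne := D.pairing_F_ne_zero 𝔇K (𝔇F := 𝔇F) ht hts hflip e
  rw [hκ] at hne
  obtain ⟨v, hv0, hv⟩ := D.exists_isKVec 𝔇F (right_ne_zero_of_mul hne)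
  obtain ⟨T, φ, hφ⟩ := D.exists_isDescended ht 𝔇K hv0 hv
  exact ⟨Ψ, T, φ, hΨ, hφ⟩

end FermatAgent.LT
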